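/-
P-MW / MW-A1 row 715 (MW-A1-ANLOC-PT), Mathlib-only core: the local behaviour of
`(c / e) (a' / a - b' / b)` for four analytic germs `a, b, c, e` at a point `z₀ ∈ ℂ`.

* `logForm_core_pole`: if `c - c₀ e` vanishes to higher order than `e`, then
  `c (a' b - a b') (z - z₀) = e a b (c₀ (ord a - ord b) + (z - z₀) u)` with `u` analytic.
* `logForm_core_regular`: if `c (a - c₁ b)` vanishes to higher order than `e a`, then
  `c (a' b - a b') (z - z₀) = e a b (z - z₀) u` with `u` analytic.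
-/
import Mathlib

set_option autoImplicit false

noncomputable section

open Filter Topology

namespace Fermat.Agent.H96.MWDiv

/-- Derivative of a factorised germ, multiplied by `z - z₀`. -/
theorem eventually_sub_mul_deriv {f g : ℂ → ℂ} {z₀ : ℂ} {n : ℕ} (hg : AnalyticAt ℂ g z₀)
    (hfg : ∀ᶠ z in 𝓝 z₀, f z = (z - z₀) ^ n * g z) :
    ∀ᶠ z in 𝓝 z₀,
      (z - z₀) * deriv f z = (z - z₀) ^ n * (n * g z + (z - z₀) * deriv g z) := by
  have hfg' : f =ᶠ[𝓝 z₀] fun w => (w - z₀) ^ n * g w := hfg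
  have h1 : ∀ᶠ z in 𝓝 z₀, deriv f z = deriv (fun w => (w - z₀) ^ n * g w) z := hfg'.deriv
  have h2 : ∀ᶠ z in 𝓝 z₀, AnalyticAt ℂ g z := hg.eventually_analyticAt
  filter_upwards [h1, h2] with z hz hgz
  rw [hz]
  have hp : HasDerivAt (fun w : ℂ => (w - z₀) ^ n) (n * (z - z₀) ^ (n - 1) * 1) z :=
    ((hasDerivAt_id z).sub_const z₀).pow n
  have hd : HasDerivAt (fun w : ℂ => (w - z₀) ^ n * g w)
      (n * (z - z₀) ^ (n - 1) * 1 * g z + (z - z₀) ^ n * deriv g z) z :=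
    hp.mul hgz.differentiableAt.hasDerivAt
  rw [hd.deriv]
  cases n with
  | zero => simp
  | succ k =>
    simp only [Nat.add_sub_cancel, Nat.cast_add, Nat.cast_one, mul_one]
    ring

/-- `(z - z₀) f' = f L` with `L` analytic, `L z₀ = ord f`. -/
theorem exists_logDeriv_factor {f : ℂ → ℂ} {z₀ : ℂ} {n : ℕ} (hf : AnalyticAt ℂ f z₀)
    (hn : analyticOrderAt f z₀ = n) :
    ∃ L : ℂ → ℂ, AnalyticAt ℂ L z₀ ∧ L z₀ = n ∧
      ∀ᶠ z in 𝓝 z₀, (z - z₀) * deriv f z = f z * L z := by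
  obtain ⟨g, hg, hg0, hfg⟩ := hf.analyticOrderAt_eq_natCast.mp hn
  simp only [smul_eq_mul] at hfg
  have hdg : AnalyticAt ℂ (deriv g) z₀ := hg.deriv
  refine ⟨fun z => n + (z - z₀) * deriv g z / g z, ?_, by simp, ?_⟩
  · refine analyticAt_const.add ?_
    exact ((analyticAt_id.sub analyticAt_const).mul hdg).div hg hg0
  · have hne : ∀ᶠ z in 𝓝 z₀, g z ≠ 0 := hg.continuousAt.eventually_ne hg0
    filter_upwards [eventually_sub_mul_deriv hg hfg, hfg, hne] with z h1 h2 h3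
    rw [h1, h2]
    field_simp

/-- `c = e Q` with `Q` analytic, `Q z₀ = c₀`, if `c - c₀ e` vanishes to higher order than `e`. -/
theorem exists_quotient {fc fe : ℂ → ℂ} {z₀ : ℂ} {nE : ℕ} (c₀ : ℂ)
    (hc : AnalyticAt ℂ fc z₀) (he : AnalyticAt ℂ fe z₀)
    (hnE : analyticOrderAt fe z₀ = nE)
    (hord : ((nE + 1 : ℕ) : ℕ∞) ≤ analyticOrderAt (fun z => fc z - c₀ * fe z) z₀) :
    ∃ Q : ℂ → ℂ, AnalyticAt ℂ Q z₀ ∧ Q z₀ = c₀ ∧ ∀ᶠ z in 𝓝 z₀, fc z = fe z * Q z := by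
  obtain ⟨e₁, he₁, he₁0, hfe⟩ := he.analyticOrderAt_eq_natCast.mp hnE
  have hdiff : AnalyticAt ℂ (fun z => fc z - c₀ * fe z) z₀ := hc.sub (analyticAt_const.mul he)
  obtain ⟨q, hq, hfq⟩ := (natCast_le_analyticOrderAt hdiff).mp hord
  simp only [smul_eq_mul] at hfe hfq
  refine ⟨fun z => c₀ + (z - z₀) * q z / e₁ z, ?_, by simp, ?_⟩
  · refine analyticAt_const.add ?_
    exact ((analyticAt_id.sub analyticAt_const).mul hq).div he₁ he₁0
  · have hne : ∀ᶠ z in 𝓝 z₀, e₁ z ≠ 0 := he₁.continuousAt.eventually_ne he₁0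
    filter_upwards [hfe, hfq, hne] with z h1 h2 h3
    have h4 : fc z = c₀ * fe z + (z - z₀) ^ (nE + 1) * q z := by rw [← h2]; ring
    rw [h4, h1]
    field_simp
    ring

/-- From `num (z - z₀) = den F`, `F` analytic with `F z₀ = R`, to the residue form. -/
theorem exists_u_of_factor {F num den : ℂ → ℂ} {z₀ R : ℂ} (hF : AnalyticAt ℂ F z₀)
    (hFz : F z₀ = R) (h : ∀ᶠ z in 𝓝 z₀, num z * (z - z₀) = den z * F z) :
    ∃ u : ℂ → ℂ, AnalyticAt ℂ u z₀ ∧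
      ∀ᶠ z in 𝓝 z₀, num z * (z - z₀) = den z * (R + (z - z₀) * u z) := by
  refine ⟨dslope F z₀, ?_, ?_⟩
  · obtain ⟨p, hp⟩ := hF
    exact ⟨_, hp.has_fpower_series_dslope_fslope⟩
  · filter_upwards [h] with z hz
    rw [hz, ← hFz]
    have h1 := sub_smul_dslope F z₀ z
    rw [smul_eq_mul] at h1
    rw [h1]
    ring

/-- **Core, at a zero or pole of `a / b`.** -/
theorem logForm_core_pole {fa fb fc fe : ℂ → ℂ} {z₀ : ℂ} {nA nB nE : ℕ} (c₀ : ℂ)
    (ha : AnalyticAt ℂ fa z₀) (hb : AnalyticAt ℂ fb z₀) (hc : AnalyticAt ℂ fc z₀)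
    (he : AnalyticAt ℂ fe z₀)
    (hnA : analyticOrderAt fa z₀ = nA) (hnB : analyticOrderAt fb z₀ = nB)
    (hnE : analyticOrderAt fe z₀ = nE)
    (hord : ((nE + 1 : ℕ) : ℕ∞) ≤ analyticOrderAt (fun z => fc z - c₀ * fe z) z₀) :
    ∃ u : ℂ → ℂ, AnalyticAt ℂ u z₀ ∧ ∀ᶠ z in 𝓝 z₀,
      fc z * (deriv fa z * fb z - fa z * deriv fb z) * (z - z₀) =
        fe z * (fa z * fb z) * (c₀ * ((nA : ℂ) - nB) + (z - z₀) * u z) := by
  obtain ⟨La, hLa, hLa0, hLa'⟩ := exists_logDeriv_factor ha hnA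
  obtain ⟨Lb, hLb, hLb0, hLb'⟩ := exists_logDeriv_factor hb hnB
  obtain ⟨Q, hQ, hQ0, hQ'⟩ := exists_quotient c₀ hc he hnE hord
  refine exists_u_of_factor (F := fun z => Q z * (La z - Lb z)) (hQ.mul (hLa.sub hLb))
    (by simp only [hQ0, hLa0, hLb0]) ?_
  filter_upwards [hLa', hLb', hQ'] with z h1 h2 h3
  have h4 : (deriv fa z * fb z - fa z * deriv fb z) * (z - z₀) =
      fa z * fb z * (La z - Lb z) := by
    linear_combination fb z * h1 - fa z * h2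
  rw [mul_assoc, h4, h3]
  ring

/-- **Core, at a point where `a / b` is a unit.** -/
theorem logForm_core_regular {fa fb fc fe : ℂ → ℂ} {z₀ : ℂ} {nA nB nE nF : ℕ} (c₁ : ℂ)
    (ha : AnalyticAt ℂ fa z₀) (hb : AnalyticAt ℂ fb z₀) (hc : AnalyticAt ℂ fc z₀)
    (he : AnalyticAt ℂ fe z₀)
    (hnA : analyticOrderAt fa z₀ = nA) (hnB : analyticOrderAt fb z₀ = nB)
    (hnE : analyticOrderAt fe z₀ = nE)
    (hnF : analyticOrderAt (fun z => fa z - c₁ * fb z) z₀ = nF)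
    (hord : ((nE + nA + 1 : ℕ) : ℕ∞) ≤
      analyticOrderAt (fun z => fc z * (fa z - c₁ * fb z)) z₀) :
    ∃ u : ℂ → ℂ, AnalyticAt ℂ u z₀ ∧ ∀ᶠ z in 𝓝 z₀,
      fc z * (deriv fa z * fb z - fa z * deriv fb z) * (z - z₀) =
        fe z * (fa z * fb z) * (0 + (z - z₀) * u z) := by
  have hf : AnalyticAt ℂ (fun z => fa z - c₁ * fb z) z₀ := ha.sub (analyticAt_const.mul hb)
  obtain ⟨Lf, hLf, _, hLf'⟩ := exists_logDeriv_factor hf hnF
  obtain ⟨Lb, hLb, _, hLb'⟩ := exists_logDeriv_factor hb hnB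
  have hea : analyticOrderAt (fun z => fe z * fa z) z₀ = ((nE + nA : ℕ) : ℕ∞) := by
    have := analyticOrderAt_mul he ha
    rw [hnE, hnA] at this
    rw [Nat.cast_add]
    exact this
  have hord' : (((nE + nA) + 1 : ℕ) : ℕ∞) ≤
      analyticOrderAt (fun z => fc z * (fa z - c₁ * fb z) - 0 * (fe z * fa z)) z₀ := by
    simpa using hord
  obtain ⟨Q, hQ, hQ0, hQ'⟩ := exists_quotient (fc := fun z => fc z * (fa z - c₁ * fb z))
    (fe := fun z => fe z * fa z) 0 (hc.mul hf) (he.mul ha) hea hord'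
  have hder : ∀ᶠ z in 𝓝 z₀, deriv (fun z => fa z - c₁ * fb z) z =
      deriv fa z - c₁ * deriv fb z := by
    filter_upwards [ha.eventually_analyticAt, hb.eventually_analyticAt] with z h1 h2
    have h3 := (h1.differentiableAt.hasDerivAt).sub
      ((h2.differentiableAt.hasDerivAt).const_mul c₁)
    exact h3.deriv
  refine exists_u_of_factor (F := fun z => Q z * (Lf z - Lb z)) (hQ.mul (hLf.sub hLb))
    (by simp only [hQ0, zero_mul]) ?_
  filter_upwards [hLf', hLb', hQ', hder] with z h1 h2 h3 h4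
  rw [h4] at h1
  have h5 : (deriv fa z * fb z - fa z * deriv fb z) * (z - z₀) =
      (fa z - c₁ * fb z) * fb z * (Lf z - Lb z) := by
    linear_combination fb z * h1 - (fa z - c₁ * fb z) * h2
  have h6 : fc z * (deriv fa z * fb z - fa z * deriv fb z) * (z - z₀) =
      (fc z * (fa z - c₁ * fb z)) * fb z * (Lf z - Lb z) := by
    rw [mul_assoc, h5]; ring
  rw [h6, h3]
  ring

/-- Two germs of the same finite order: some combination `a - c₁ b` has higher order. -/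
theorem exists_const_order_gt {fa fb : ℂ → ℂ} {z₀ : ℂ} {n : ℕ}
    (ha : AnalyticAt ℂ fa z₀) (hb : AnalyticAt ℂ fb z₀)
    (hnA : analyticOrderAt fa z₀ = n) (hnB : analyticOrderAt fb z₀ = n) :
    ∃ c₁ : ℂ, ((n + 1 : ℕ) : ℕ∞) ≤ analyticOrderAt (fun z => fa z - c₁ * fb z) z₀ := by
  obtain ⟨a₁, ha₁, _, hfa⟩ := ha.analyticOrderAt_eq_natCast.mp hnA
  obtain ⟨b₁, hb₁, hb₁0, hfb⟩ := hb.analyticOrderAt_eq_natCast.mp hnB
  simp only [smul_eq_mul] at hfa hfb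
  refine ⟨a₁ z₀ / b₁ z₀, ?_⟩
  have hf : AnalyticAt ℂ (fun z => fa z - a₁ z₀ / b₁ z₀ * fb z) z₀ :=
    ha.sub (analyticAt_const.mul hb)
  rw [natCast_le_analyticOrderAt hf]
  have hh : AnalyticAt ℂ (fun z => a₁ z - a₁ z₀ / b₁ z₀ * b₁ z) z₀ :=
    ha₁.sub (analyticAt_const.mul hb₁)
  refine ⟨dslope (fun z => a₁ z - a₁ z₀ / b₁ z₀ * b₁ z) z₀, ?_, ?_⟩
  · obtain ⟨p, hp⟩ := hh
    exact ⟨_, hp.has_fpower_series_dslope_fslope⟩
  · filter_upwards [hfa, hfb] with z h1 h2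
    have h3 := sub_smul_dslope (fun z => a₁ z - a₁ z₀ / b₁ z₀ * b₁ z) z₀ z
    simp only [smul_eq_mul] at h3 ⊢
    have h4 : a₁ z₀ - a₁ z₀ / b₁ z₀ * b₁ z₀ = 0 := by field_simp; ring
    rw [h4, sub_zero] at h3
    rw [pow_succ, mul_assoc, h3, h1, h2]
    ring

end Fermat.Agent.H96.MWDiv

end
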