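/-
P-MW / MW-A1 row 715 (MW-A1-ANLOC-PT): the local behaviour of the logarithmic form
`(C / E) (A' / A - B' / B)` at the points of `ℍ`:

`logFormPoint N : Fermat.Agent.H84.MWDiv.LogFormPointStatement N`.

The analysis is in `Fermat.Agent.H96.MWDiv.LogFormCore` (Mathlib only); this file translates
the data of the place (`IsPointPlace`, `IsThirdKind`, `ramIdx`) into orders of vanishing.
-/
import Fermat.Agent.H84.MWDiv.Interfaces2
import Fermat.Agent.H96.MWDiv.LogFormCore
import Fermat.Agent.H19.RH.RamIdx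
import Fermat.Agent.H61.GenAn1

set_option autoImplicit false

noncomputable section

open AlgebraicCurve UpperHalfPlane Filter Topology
open scoped MatrixGroups Manifold

namespace Fermat.Agent.H96.MWDiv

open Fermat.Agent.H23.EsA Fermat.Agent.H84.MWDiv

variable {N : ℕ}

/-- `X - c₀ E` represents `x - c₀ e`. -/
theorem rep_sub_const_mul {X E : ℍ → ℂ} {x e : ↥(FC N)}
    (hX : Fermat.Agent.H23.EsA.Rep N X x) (hE : Fermat.Agent.H23.EsA.Rep N E e)
    (c₀ : ℂ) :
    Fermat.Agent.H23.EsA.Rep N (fun z => X z - c₀ * E z)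
      (x - algebraMap ℂ ↥(FC N) c₀ * e) := by
  have h1 := Fermat.Agent.H44.laurentRel_const (-c₀)
  have h2 := Fermat.Agent.H44.LaurentRel.add hX (h1.mul hE)
  unfold Fermat.Agent.H23.EsA.Rep
  have e0 : ((algebraMap ℂ ↥(FC N) c₀ : ↥(FC N)) : LaurentSeries ℂ)
      = algebraMap ℂ (LaurentSeries ℂ) c₀ := rfl
  have e1 : ((x - algebraMap ℂ ↥(FC N) c₀ * e : ↥(FC N)) : LaurentSeries ℂ)
      = (x : LaurentSeries ℂ) + HahnSeries.C (-c₀) * (e : LaurentSeries ℂ) := by
    have e2 : ((x - algebraMap ℂ ↥(FC N) c₀ * e : ↥(FC N)) : LaurentSeries ℂ)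
        = (x : LaurentSeries ℂ) -
          ((algebraMap ℂ ↥(FC N) c₀ : ↥(FC N)) : LaurentSeries ℂ) * (e : LaurentSeries ℂ) := rfl
    rw [e2, e0, ModularCurve.algebraMap_laurentSeries_eq_single, map_neg]
    have e3 : (HahnSeries.C c₀ : LaurentSeries ℂ) = HahnSeries.single 0 c₀ := rfl
    rw [e3]
    ring
  rw [e1]
  have e4 : (fun z => X z - c₀ * E z) = X + (fun _ => -c₀) * E := by
    funext z
    simp only [Pi.add_apply, Pi.mul_apply]
    ring
  rw [e4]
  exact h2

/-- A function representing `0` is `0`. -/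
theorem rep_zero_eq {X : ℍ → ℂ} (hX : Fermat.Agent.H23.EsA.Rep N X (0 : ↥(FC N))) : X = 0 :=
  Fermat.Agent.H44.LaurentRel.unique_left hX Fermat.Agent.H44.laurentRel_zero

/-- The order of vanishing at a point place, as a natural number. -/
theorem analyticOrder_of_rep {z₀ : ℍ} {v : Place ℂ ↥(FC N)} {s : ℕ}
    (hv : IsPointPlace N z₀ v s) {X : ℍ → ℂ} {x : ↥(FC N)} (hx : x ≠ 0)
    (hX : Fermat.Agent.H23.EsA.Rep N X x) :
    ∃ n : ℕ, (n : ℤ) = (s : ℤ) * v.ord x ∧ analyticOrderAt (X ∘ ofComplex) (z₀ : ℂ) = n := by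
  have han := Fermat.Agent.H61.analyticAt_comp_ofComplex
    (Fermat.Agent.H44.LaurentRel.mdifferentiable hX) z₀
  have h := hv.2.1 x X hx hX
  rw [han.meromorphicOrderAt_eq] at h
  cases hn : analyticOrderAt (X ∘ ofComplex) (z₀ : ℂ) with
  | top =>
    rw [hn, ENat.map_top] at h
    exact (WithTop.top_ne_coe h).elim
  | coe n =>
    rw [hn, ENat.map_natCast] at h
    exact ⟨n, WithTop.coe_injective h, rfl⟩

/-- The arithmetic of the residue. -/
theorem residue_arith {oy oa ob d : ℤ} {s nA nB : ℕ} (hoy : oy ≠ 0)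
    (hnA : (nA : ℤ) = (s : ℤ) * oa) (hnB : (nB : ℤ) = (s : ℤ) * ob) (hoa : oa = oy + ob) :
    ((d : ℤ) : ℂ) / ((oy : ℤ) : ℂ) * ((nA : ℂ) - nB) = ((((s : ℤ) * d : ℤ)) : ℂ) := by
  have h1 : (nA : ℤ) - nB = s * oy := by rw [hnA, hnB, hoa]; ring
  have h2 : ((oy : ℤ) : ℂ) ≠ 0 := by exact_mod_cast hoy
  have h3 : ((nA : ℂ) - nB) = (s : ℂ) * ((oy : ℤ) : ℂ) := by
    have := congrArg (Int.cast : ℤ → ℂ) h1
    push_cast at this
    exact this
  rw [h3]
  push_cast
  field_simp

theorem logFormPoint (N : ℕ) [NeZero N] : LogFormPointStatement N := by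
  intro y G D A B C E hdata hy hD htk z₀ v s hv
  obtain ⟨a, b, c, e, hb, he, hya, hGe, hA, hB, hC, hE⟩ := hdata
  have hy0 : y ≠ 0 := by
    rintro rfl
    exact hy isAlgebraic_zero
  have hyc : ∀ c₁ : ℂ, y - algebraMap ℂ ↥(FC N) c₁ ≠ 0 := by
    intro c₁ h
    apply hy
    rw [sub_eq_zero.mp h]
    exact isAlgebraic_algebraMap c₁
  have ha : a ≠ 0 := by rw [← hya]; exact mul_ne_zero hy0 hb
  have hs : 0 < s := hv.1
  have hfa : AnalyticAt ℂ (A ∘ ofComplex) (z₀ : ℂ) :=
    Fermat.Agent.H61.analyticAt_comp_ofComplex (Fermat.Agent.H44.LaurentRel.mdifferentiable hA) z₀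
  have hfb : AnalyticAt ℂ (B ∘ ofComplex) (z₀ : ℂ) :=
    Fermat.Agent.H61.analyticAt_comp_ofComplex (Fermat.Agent.H44.LaurentRel.mdifferentiable hB) z₀
  have hfc : AnalyticAt ℂ (C ∘ ofComplex) (z₀ : ℂ) :=
    Fermat.Agent.H61.analyticAt_comp_ofComplex (Fermat.Agent.H44.LaurentRel.mdifferentiable hC) z₀
  have hfe : AnalyticAt ℂ (E ∘ ofComplex) (z₀ : ℂ) :=
    Fermat.Agent.H61.analyticAt_comp_ofComplex (Fermat.Agent.H44.LaurentRel.mdifferentiable hE) z₀
  obtain ⟨nA, hnA, hoA⟩ := analyticOrder_of_rep hv ha hA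
  obtain ⟨nB, hnB, hoB⟩ := analyticOrder_of_rep hv hb hB
  obtain ⟨nE, hnE, hoE⟩ := analyticOrder_of_rep hv he hE
  have hordA : v.ord a = v.ord y + v.ord b := by rw [← hya]; exact v.ord_mul hy0 hb
  have hnum : ∀ᶠ z in 𝓝 (z₀ : ℂ), (logNum A B C ∘ ofComplex) z =
      (C ∘ ofComplex) z * (deriv (A ∘ ofComplex) z * (B ∘ ofComplex) z -
        (A ∘ ofComplex) z * deriv (B ∘ ofComplex) z) := by
    filter_upwards [isOpen_upperHalfPlaneSet.mem_nhds z₀.im_pos] with z hz
    have hcoe : ((ofComplex z : ℍ) : ℂ) = z := by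
      rw [ofComplex_apply_of_im_pos hz]
    simp only [Function.comp_apply, logNum, dH]
    rw [hcoe]
  have hden : ∀ z : ℂ, (logDen A B E ∘ ofComplex) z =
      (E ∘ ofComplex) z * ((A ∘ ofComplex) z * (B ∘ ofComplex) z) := fun z => rfl
  by_cases hvy : v.ord y = 0
  · -- `y` is a unit at `v`
    have hDv : D v = 0 := hD v hvy
    have hram := htk.2 v hvy
    have hAB : nA = nB := by
      have : (nA : ℤ) = (nB : ℤ) := by rw [hnA, hnB, hordA, hvy, zero_add]
      exact_mod_cast this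
    obtain ⟨c₁, hc₁⟩ := exists_const_order_gt hfa hfb hoA (hAB ▸ hoB)
    have hxne : a - algebraMap ℂ ↥(FC N) c₁ * b ≠ 0 := by
      have : a - algebraMap ℂ ↥(FC N) c₁ * b = (y - algebraMap ℂ ↥(FC N) c₁) * b := by
        rw [← hya]; ring
      rw [this]
      exact mul_ne_zero (hyc c₁) hb
    have hxord : v.ord (a - algebraMap ℂ ↥(FC N) c₁ * b) =
        v.ord (y - algebraMap ℂ ↥(FC N) c₁) + v.ord b := by
      have : a - algebraMap ℂ ↥(FC N) c₁ * b = (y - algebraMap ℂ ↥(FC N) c₁) * b := by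
        rw [← hya]; ring
      rw [this]
      exact v.ord_mul (hyc c₁) hb
    obtain ⟨nF, hnF, hoF⟩ := analyticOrder_of_rep hv hxne (rep_sub_const_mul hA hB c₁)
    have hoF' : analyticOrderAt (fun z => (A ∘ ofComplex) z - c₁ * (B ∘ ofComplex) z)
        (z₀ : ℂ) = nF := hoF
    have hFA : nA + 1 ≤ nF := by
      rw [hoF'] at hc₁
      exact_mod_cast hc₁
    have ht : 0 < v.ord (y - algebraMap ℂ ↥(FC N) c₁) := by
      by_contra hneg
      have h1 : (s : ℤ) * v.ord (y - algebraMap ℂ ↥(FC N) c₁) ≤ 0 :=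
        mul_nonpos_of_nonneg_of_nonpos (by positivity) (not_lt.mp hneg)
      have h2 : (nF : ℤ) = (s : ℤ) * v.ord (y - algebraMap ℂ ↥(FC N) c₁) + nB := by
        rw [hnF, hxord, hnB]; ring
      have h3 : (nA : ℤ) + 1 ≤ nF := by exact_mod_cast hFA
      rw [hAB] at h3
      omega
    have hramt : (Fermat.Agent.H27.ESD.ramIdx y v : ℤ) = v.ord (y - algebraMap ℂ ↥(FC N) c₁) :=
      Fermat.Agent.H19.rh_ramIdx_of_ord_sub_pos' v ht
    have hord : ((nE + nA + 1 : ℕ) : ℕ∞) ≤
        analyticOrderAt (fun z => (C ∘ ofComplex) z *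
          ((A ∘ ofComplex) z - c₁ * (B ∘ ofComplex) z)) (z₀ : ℂ) := by
      by_cases hG : G = 0
      · have hc0 : c = 0 := by rw [← hGe, hG, zero_mul]
        rw [hc0] at hC
        have hC0 := rep_zero_eq hC
        have : (fun z => (C ∘ ofComplex) z *
            ((A ∘ ofComplex) z - c₁ * (B ∘ ofComplex) z)) = fun _ => 0 := by
          funext z
          simp [hC0]
        rw [this, analyticOrderAt_eq_top.mpr (Eventually.of_forall fun _ => rfl)]
        exact le_top
      · have hc0 : c ≠ 0 := by rw [← hGe]; exact mul_ne_zero hG he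
        obtain ⟨nC, hnC, hoC⟩ := analyticOrder_of_rep hv hc0 hC
        have hordC : v.ord c = v.ord G + v.ord e := by rw [← hGe]; exact v.ord_mul hG he
        have hmul := analyticOrderAt_mul hfc
          (hfa.sub (analyticAt_const.mul hfb) :
            AnalyticAt ℂ (fun z => (A ∘ ofComplex) z - c₁ * (B ∘ ofComplex) z) (z₀ : ℂ))
        have hmul' : analyticOrderAt (fun z => (C ∘ ofComplex) z *
            ((A ∘ ofComplex) z - c₁ * (B ∘ ofComplex) z)) (z₀ : ℂ) = ((nC + nF : ℕ) : ℕ∞) := by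
          rw [Nat.cast_add, ← hoC, ← hoF']
          exact hmul
        rw [hmul']
        have key : nE + nA + 1 ≤ nC + nF := by
          have h1 : (nC : ℤ) = (s : ℤ) * v.ord G + nE := by rw [hnC, hordC, hnE]; ring
          have h2 : (nF : ℤ) = (s : ℤ) * v.ord (y - algebraMap ℂ ↥(FC N) c₁) + nB := by
            rw [hnF, hxord, hnB]; ring
          have h3 : (s : ℤ) * (1 - v.ord (y - algebraMap ℂ ↥(FC N) c₁)) ≤ (s : ℤ) * v.ord G :=
            mul_le_mul_of_nonneg_left (by rw [← hramt]; linarith) (by positivity)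
          have h4 : (1 : ℤ) ≤ s := by exact_mod_cast hs
          have h5 : ((nE + nA + 1 : ℕ) : ℤ) ≤ ((nC + nF : ℕ) : ℤ) := by
            push_cast
            rw [h1, h2, hAB]
            nlinarith
          exact_mod_cast h5
        exact_mod_cast key
    obtain ⟨u, hu, hu'⟩ := logForm_core_regular c₁ hfa hfb hfc hfe hoA hoB hoE hoF' hord
    refine ⟨u, hu, ?_⟩
    filter_upwards [hu', hnum] with z h1 h2
    rw [h2, hden, h1, hDv]
    simp
  · -- `v` is a zero or a pole of `y`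
    obtain ⟨_, hval⟩ := htk.1 v hvy
    set c₀ : ℂ := ((D v : ℤ) : ℂ) / ((v.ord y : ℤ) : ℂ) with hc₀
    have hord : ((nE + 1 : ℕ) : ℕ∞) ≤
        analyticOrderAt (fun z => (C ∘ ofComplex) z - c₀ * (E ∘ ofComplex) z) (z₀ : ℂ) := by
      rcases hval with hGc | hGc
      · have hc' : c - algebraMap ℂ ↥(FC N) c₀ * e = 0 := by rw [← hGe, hGc]; ring
        have hrep := rep_sub_const_mul hC hE c₀
        rw [hc'] at hrep
        have h0 := rep_zero_eq hrep
        have : (fun z => (C ∘ ofComplex) z - c₀ * (E ∘ ofComplex) z) = fun _ => 0 := by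
          funext z
          exact congrFun h0 (ofComplex z)
        rw [this, analyticOrderAt_eq_top.mpr (Eventually.of_forall fun _ => rfl)]
        exact le_top
      · have hGne : G - algebraMap ℂ ↥(FC N) c₀ ≠ 0 := by
          intro h
          rw [h, Place.ord_zero] at hGc
          exact lt_irrefl _ hGc
        have hx : c - algebraMap ℂ ↥(FC N) c₀ * e = (G - algebraMap ℂ ↥(FC N) c₀) * e := by
          rw [← hGe]; ring
        have hxne : c - algebraMap ℂ ↥(FC N) c₀ * e ≠ 0 := by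
          rw [hx]; exact mul_ne_zero hGne he
        obtain ⟨nX, hnX, hoX⟩ := analyticOrder_of_rep hv hxne (rep_sub_const_mul hC hE c₀)
        have hoX' : analyticOrderAt (fun z => (C ∘ ofComplex) z - c₀ * (E ∘ ofComplex) z)
            (z₀ : ℂ) = nX := hoX
        rw [hoX']
        have key : nE + 1 ≤ nX := by
          have h1 : (nX : ℤ) = (s : ℤ) * v.ord (G - algebraMap ℂ ↥(FC N) c₀) + nE := by
            rw [hnX, hx, v.ord_mul hGne he, hnE]; ring
          have h3 : (s : ℤ) * 1 ≤ (s : ℤ) * v.ord (G - algebraMap ℂ ↥(FC N) c₀) :=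
            mul_le_mul_of_nonneg_left (by omega) (by positivity)
          have h4 : (1 : ℤ) ≤ s := by exact_mod_cast hs
          have h5 : ((nE + 1 : ℕ) : ℤ) ≤ (nX : ℤ) := by
            push_cast
            rw [h1]
            linarith
          exact_mod_cast h5
        exact_mod_cast key
    obtain ⟨u, hu, hu'⟩ := logForm_core_pole c₀ hfa hfb hfc hfe hoA hoB hoE hord
    refine ⟨u, hu, ?_⟩
    have hres : c₀ * ((nA : ℂ) - nB) = ((((s : ℤ) * D v : ℤ)) : ℂ) := by
      rw [hc₀]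
      exact residue_arith hvy hnA hnB hordA
    filter_upwards [hu', hnum] with z h1 h2
    rw [h2, hden, h1, hres]

end Fermat.Agent.H96.MWDiv

end
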